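/-
PROGRAMME I, leaf L13 (DV-completion package), file 1: the completion
`Cpl R := AdicCompletion (maximalIdeal R) R` of a noetherian local ring: injectivity, density mod
`𝔪^n`, `𝔪_{R^}^n ∩ R = 𝔪_R^n`; and the DVR case: the completion of a discrete valuation ring is a
complete discrete valuation ring with the same uniformiser. Mathlib only.
(Re-homed from helper16's FF2/Comp/{Local,Dvr}, which is not on main.)
-/
import Mathlib

namespace Fermat.Agent.FF3.DVCompl


open IsLocalRing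

variable (R : Type*) [CommRing R] [IsLocalRing R] [IsNoetherianRing R]

/-- The completion of a noetherian local ring at its maximal ideal. -/
abbrev Cpl : Type _ := AdicCompletion (maximalIdeal R) R

variable {R}

omit [IsNoetherianRing R] in
theorem algebraMap_cpl_apply (a : R) :
    algebraMap R (Cpl R) a = AdicCompletion.of (maximalIdeal R) R a := by
  rw [AdicCompletion.algebraMap_apply]
  simp

/-- `R → R^` is injective (Krull's intersection theorem). -/
theorem algebraMap_cpl_injective : Function.Injective (algebraMap R (Cpl R)) := by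
  intro a b h
  rw [algebraMap_cpl_apply, algebraMap_cpl_apply] at h
  exact AdicCompletion.of_injective (maximalIdeal R) R h

/-- Membership in the powers of the maximal ideal of the completion, componentwise. -/
theorem mem_maximalIdeal_cpl_pow_iff (x : Cpl R) (n : ℕ) :
    x ∈ maximalIdeal (Cpl R) ^ n ↔ x.1 n = 0 := by
  have : (AdicCompletion.eval (maximalIdeal R) R n).ker =
      (maximalIdeal R) ^ n • (⊤ : Submodule R (AdicCompletion (maximalIdeal R) R)) :=
    (AdicCompletion.pow_smul_top_eq_ker_eval (maximalIdeal R).fg_of_isNoetherianRing).symm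
  rw [AdicCompletion.maximalIdeal_eq_map, ← Ideal.map_pow, ← Submodule.restrictScalars_mem R,
    ← Ideal.smul_top_eq_map, ← this]
  simp [AdicCompletion.eval]

omit [IsNoetherianRing R] in
theorem evalₐ_eq_zero_iff (x : Cpl R) (n : ℕ) :
    AdicCompletion.evalₐ (maximalIdeal R) n x = 0 ↔ x.1 n = 0 := by
  have h : (maximalIdeal R ^ n • ⊤ : Ideal R) = maximalIdeal R ^ n := by ext x; simp
  have h1 : AdicCompletion.evalₐ (maximalIdeal R) n x =
      Ideal.quotientEquivAlgOfEq R h (AdicCompletion.eval (maximalIdeal R) R n x) := rfl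
  rw [h1, map_eq_zero_iff _ (Ideal.quotientEquivAlgOfEq R h).injective, AdicCompletion.eval_apply]

/-- Membership in the powers of the maximal ideal of the completion, via `evalₐ`. -/
theorem mem_maximalIdeal_cpl_pow_iff_evalₐ (x : Cpl R) (n : ℕ) :
    x ∈ maximalIdeal (Cpl R) ^ n ↔ AdicCompletion.evalₐ (maximalIdeal R) n x = 0 := by
  rw [mem_maximalIdeal_cpl_pow_iff, evalₐ_eq_zero_iff]

/-- `𝔪_{R^}^n ∩ R = 𝔪_R^n`. -/
theorem algebraMap_mem_maximalIdeal_cpl_pow_iff (a : R) (n : ℕ) :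
    algebraMap R (Cpl R) a ∈ maximalIdeal (Cpl R) ^ n ↔ a ∈ maximalIdeal R ^ n := by
  rw [mem_maximalIdeal_cpl_pow_iff, algebraMap_cpl_apply, AdicCompletion.of_apply,
    Submodule.mkQ_apply, Submodule.Quotient.mk_eq_zero, smul_eq_mul, Ideal.mul_top]

/-- `R` is dense in `R^`: every element of `R^` is congruent to an element of `R` modulo any power of
the maximal ideal. -/
theorem exists_sub_mem_maximalIdeal_cpl_pow (x : Cpl R) (n : ℕ) :
    ∃ a : R, x - algebraMap R (Cpl R) a ∈ maximalIdeal (Cpl R) ^ n := by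
  obtain ⟨a, ha⟩ := Submodule.mkQ_surjective _ (x.1 n)
  refine ⟨a, ?_⟩
  rw [mem_maximalIdeal_cpl_pow_iff, algebraMap_cpl_apply]
  have : (x - AdicCompletion.of (maximalIdeal R) R a).1 n =
      x.1 n - (AdicCompletion.of (maximalIdeal R) R a).1 n := rfl
  rw [this, AdicCompletion.of_apply, ha, sub_self]

section dvr



variable {Λ : Type*} [CommRing Λ] [IsDomain Λ] [IsDiscreteValuationRing Λ]

/-- The maximal ideal of the completion is generated by (the image of) a uniformiser. -/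
theorem maximalIdeal_cpl_eq_span {ϖ : Λ} (hϖ : Irreducible ϖ) :
    maximalIdeal (Cpl Λ) = Ideal.span {algebraMap Λ (Cpl Λ) ϖ} := by
  rw [AdicCompletion.maximalIdeal_eq_map]
  calc Ideal.map (algebraMap Λ (Cpl Λ)) (maximalIdeal Λ)
      = Ideal.map (algebraMap Λ (Cpl Λ)) (Ideal.span {ϖ}) := congrArg _ hϖ.maximalIdeal_eq
    _ = Ideal.span {algebraMap Λ (Cpl Λ) ϖ} := by rw [Ideal.map_span, Set.image_singleton]

theorem maximalIdeal_cpl_pow_eq_span {ϖ : Λ} (hϖ : Irreducible ϖ) (n : ℕ) :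
    maximalIdeal (Cpl Λ) ^ n = Ideal.span {algebraMap Λ (Cpl Λ) ϖ ^ n} := by
  rw [maximalIdeal_cpl_eq_span hϖ, Ideal.span_singleton_pow]

theorem algebraMap_cpl_pow_ne_zero {ϖ : Λ} (hϖ : Irreducible ϖ) (n : ℕ) :
    algebraMap Λ (Cpl Λ) ϖ ^ n ≠ 0 := by
  rw [← map_pow]
  intro h
  rw [← map_zero (algebraMap Λ (Cpl Λ))] at h
  exact pow_ne_zero n hϖ.ne_zero (algebraMap_cpl_injective h)

/-- Every nonzero element of the completion is a unit times a power of the uniformiser. -/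
theorem exists_eq_pow_mul_unit {ϖ : Λ} (hϖ : Irreducible ϖ) {x : Cpl Λ} (hx : x ≠ 0) :
    ∃ (n : ℕ) (u : (Cpl Λ)ˣ), x = algebraMap Λ (Cpl Λ) ϖ ^ n * u := by
  classical
  -- `x` is not in all powers of the maximal ideal
  have hex : ∃ n, x ∉ maximalIdeal (Cpl Λ) ^ n := by
    by_contra hcon
    push Not at hcon
    apply hx
    have hH : IsHausdorff (maximalIdeal (Cpl Λ)) (Cpl Λ) := inferInstance
    refine hH.haus' x fun n => ?_
    rw [SModEq.sub_mem, sub_zero, smul_eq_mul, Ideal.mul_top]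
    exact hcon n
  let N := Nat.find hex
  have hN : x ∉ maximalIdeal (Cpl Λ) ^ N := Nat.find_spec hex
  have hN0 : N ≠ 0 := by
    intro h0
    rw [h0, pow_zero, Ideal.one_eq_top] at hN
    exact hN Submodule.mem_top
  obtain ⟨n, hn⟩ : ∃ n, N = n + 1 := ⟨N - 1, by omega⟩
  have hmem : x ∈ maximalIdeal (Cpl Λ) ^ n := by
    by_contra h
    have := Nat.find_min' hex h
    omega
  rw [maximalIdeal_cpl_pow_eq_span hϖ, Ideal.mem_span_singleton] at hmem
  obtain ⟨u, hu⟩ := hmem
  have hunit : IsUnit u := by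
    by_contra hnu
    have hum : u ∈ maximalIdeal (Cpl Λ) := (IsLocalRing.mem_maximalIdeal u).mpr hnu
    apply hN
    rw [hn, pow_succ, hu]
    exact Ideal.mul_mem_mul
      (by rw [maximalIdeal_cpl_pow_eq_span hϖ]; exact Ideal.mem_span_singleton_self _) hum
  exact ⟨n, hunit.unit, by rw [hu]; rfl⟩

instance instIsDomainCpl : IsDomain (Cpl Λ) := by
  obtain ⟨ϖ, hϖ⟩ := IsDiscreteValuationRing.exists_irreducible Λ
  have : Nontrivial (Cpl Λ) := inferInstance
  have : NoZeroDivisors (Cpl Λ) := by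
    refine ⟨fun {a b} hab => ?_⟩
    by_contra hcon
    push Not at hcon
    obtain ⟨n, u, rfl⟩ := exists_eq_pow_mul_unit hϖ hcon.1
    obtain ⟨k, v, rfl⟩ := exists_eq_pow_mul_unit hϖ hcon.2
    have h1 : algebraMap Λ (Cpl Λ) ϖ ^ (n + k) * ((u * v : (Cpl Λ)ˣ) : Cpl Λ) = 0 := by
      rw [← hab, pow_add, Units.val_mul]
      ring
    exact algebraMap_cpl_pow_ne_zero hϖ (n + k) ((Units.mul_left_eq_zero _).mp h1)
  exact NoZeroDivisors.to_isDomain _

/-- **The completion of a discrete valuation ring is a discrete valuation ring.** -/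
instance instIsDiscreteValuationRingCpl : IsDiscreteValuationRing (Cpl Λ) := by
  obtain ⟨ϖ, hϖ⟩ := IsDiscreteValuationRing.exists_irreducible Λ
  refine IsDiscreteValuationRing.ofHasUnitMulPowIrreducibleFactorization ?_
  have hp0 : algebraMap Λ (Cpl Λ) ϖ ≠ 0 := by
    simpa using algebraMap_cpl_pow_ne_zero hϖ 1
  have hprime : Prime (algebraMap Λ (Cpl Λ) ϖ) := by
    rw [← Ideal.span_singleton_prime hp0, ← maximalIdeal_cpl_eq_span hϖ]
    exact (IsLocalRing.maximalIdeal.isMaximal _).isPrime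
  refine ⟨algebraMap Λ (Cpl Λ) ϖ, hprime.irreducible, fun {x} hx => ?_⟩
  obtain ⟨n, u, rfl⟩ := exists_eq_pow_mul_unit hϖ hx
  exact ⟨n, ⟨u, rfl⟩⟩

/-- The image of a uniformiser is a uniformiser of the completion. -/
theorem irreducible_algebraMap_cpl {ϖ : Λ} (hϖ : Irreducible ϖ) :
    Irreducible (algebraMap Λ (Cpl Λ) ϖ) := by
  have hp0 : algebraMap Λ (Cpl Λ) ϖ ≠ 0 := by
    simpa using algebraMap_cpl_pow_ne_zero hϖ 1
  have hprime : Prime (algebraMap Λ (Cpl Λ) ϖ) := by
    rw [← Ideal.span_singleton_prime hp0, ← maximalIdeal_cpl_eq_span hϖ]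
    exact (IsLocalRing.maximalIdeal.isMaximal _).isPrime
  exact hprime.irreducible

/-- `ϖ^n Λ^ ∩ Λ = ϖ^n Λ`, in divisibility form. -/
theorem algebraMap_cpl_pow_dvd_iff {ϖ : Λ} (hϖ : Irreducible ϖ) (n : ℕ) (a : Λ) :
    algebraMap Λ (Cpl Λ) ϖ ^ n ∣ algebraMap Λ (Cpl Λ) a ↔ ϖ ^ n ∣ a := by
  rw [← Ideal.mem_span_singleton, ← maximalIdeal_cpl_pow_eq_span hϖ,
    algebraMap_mem_maximalIdeal_cpl_pow_iff, hϖ.maximalIdeal_eq, Ideal.span_singleton_pow,
    Ideal.mem_span_singleton]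

/-- `c Λ^ ∩ Λ = c Λ` for every `c : Λ`, in divisibility form. -/
theorem algebraMap_cpl_dvd_iff (c b : Λ) :
    algebraMap Λ (Cpl Λ) c ∣ algebraMap Λ (Cpl Λ) b ↔ c ∣ b := by
  by_cases hc : c = 0
  · subst hc
    rw [map_zero, zero_dvd_iff, zero_dvd_iff, map_eq_zero_iff _ algebraMap_cpl_injective]
  obtain ⟨ϖ, hϖ⟩ := IsDiscreteValuationRing.exists_irreducible Λ
  obtain ⟨n, hn⟩ := IsDiscreteValuationRing.associated_pow_irreducible hc hϖ
  have h1 : Associated (algebraMap Λ (Cpl Λ) c) (algebraMap Λ (Cpl Λ) ϖ ^ n) := by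
    rw [← map_pow]
    exact hn.map _
  rw [h1.dvd_iff_dvd_left, hn.dvd_iff_dvd_left, algebraMap_cpl_pow_dvd_iff hϖ]

/-- Density in divisibility form. -/
theorem exists_pow_dvd_sub {ϖ : Λ} (hϖ : Irreducible ϖ) (x : Cpl Λ) (n : ℕ) :
    ∃ a : Λ, algebraMap Λ (Cpl Λ) ϖ ^ n ∣ x - algebraMap Λ (Cpl Λ) a := by
  obtain ⟨a, ha⟩ := exists_sub_mem_maximalIdeal_cpl_pow x n
  refine ⟨a, ?_⟩
  rwa [maximalIdeal_cpl_pow_eq_span hϖ, Ideal.mem_span_singleton] at ha

end dvr

end Fermat.Agent.FF3.DVCompl
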