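/-
PROGRAMME I, leaf L13 (DV-completion package), file 2: the universal property of the completion
`Cpl R` of a local ring: a ring homomorphism `φ : R →+* B` into a `J`-adically complete ring with
`φ 𝔪_R ⊆ J` extends to `cplLift : Cpl R →+* B`; uniqueness in the DVR case. Mathlib only.
-/
import Mathlib
import Fermat.Agent.FF3.DVCompl.Cpl

namespace Fermat.Agent.FF3.DVCompl

open IsLocalRing

section lift

variable {R : Type*} [CommRing R] [IsLocalRing R] {B : Type*} [CommRing B]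
  (J : Ideal B) (φ : R →+* B) (hφ : maximalIdeal R ≤ J.comap φ)

include hφ in
theorem maximalIdeal_pow_le_comap_pow (n : ℕ) :
    maximalIdeal R ^ n ≤ (J ^ n).comap φ := by
  rw [← Ideal.map_le_iff_le_comap, Ideal.map_pow]
  exact Ideal.pow_right_mono (Ideal.map_le_iff_le_comap.mpr hφ) n

/-- The level-`n` component `R^ → R/𝔪_R^n → B/J^n` of the lift. -/
noncomputable def liftLevel (n : ℕ) : Cpl R →+* B ⧸ J ^ n :=
  (Ideal.quotientMap (J ^ n) φ (maximalIdeal_pow_le_comap_pow J φ hφ n)).comp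
    (AdicCompletion.evalₐ (maximalIdeal R) n).toRingHom

theorem liftLevel_mk (n : ℕ) (f : AdicCompletion.AdicCauchySequence (maximalIdeal R) R) :
    liftLevel J φ hφ n (AdicCompletion.mk (maximalIdeal R) R f) =
      Ideal.Quotient.mk (J ^ n) (φ (f n)) := by
  simp [liftLevel]

theorem liftLevel_algebraMap (n : ℕ) (a : R) :
    liftLevel J φ hφ n (algebraMap R (Cpl R) a) = Ideal.Quotient.mk (J ^ n) (φ a) := by
  rw [algebraMap_cpl_apply]
  simp [liftLevel]

theorem liftLevel_compat {m n : ℕ} (hle : m ≤ n) :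
    (Ideal.Quotient.factorPow J hle).comp (liftLevel J φ hφ n) = liftLevel J φ hφ m := by
  ext x
  induction x using AdicCompletion.induction_on with
  | h f =>
    rw [RingHom.comp_apply, liftLevel_mk, liftLevel_mk]
    rw [Ideal.Quotient.factorPow, Ideal.Quotient.factor_mk, Ideal.Quotient.eq, ← map_sub]
    apply maximalIdeal_pow_le_comap_pow J φ hφ m
    have h := f.2 hle
    rw [SModEq.sub_mem, smul_eq_mul, Ideal.mul_top] at h
    have h' := Ideal.neg_mem_iff _ |>.mpr h
    simpa using h'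

/-- **Universal property of the completion**: the extension of `φ : R →+* B` to `R^`, for `B` a
`J`-adically complete ring with `φ 𝔪_R ⊆ J`. -/
noncomputable def cplLift (hB : IsAdicComplete J B) : Cpl R →+* B :=
  @IsAdicComplete.liftRingHom _ _ _ _ J hB (liftLevel J φ hφ) (liftLevel_compat J φ hφ)

theorem mk_cplLift (hB : IsAdicComplete J B) (n : ℕ) (x : Cpl R) :
    Ideal.Quotient.mk (J ^ n) (cplLift J φ hφ hB x) = liftLevel J φ hφ n x :=
  @IsAdicComplete.mk_liftRingHom _ _ _ _ J hB (liftLevel J φ hφ) (liftLevel_compat J φ hφ) n x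

theorem eq_of_forall_sub_mem_pow (hB : IsAdicComplete J B) {x y : B}
    (h : ∀ n : ℕ, x - y ∈ J ^ n) : x = y := by
  have hH : IsHausdorff J B := hB.toIsHausdorff
  rw [← sub_eq_zero]
  refine hH.haus' _ fun n => ?_
  rw [SModEq.sub_mem, sub_zero, smul_eq_mul, Ideal.mul_top]
  exact h n

/-- The lift extends `φ`. -/
theorem cplLift_algebraMap (hB : IsAdicComplete J B) (a : R) :
    cplLift J φ hφ hB (algebraMap R (Cpl R) a) = φ a := by
  refine eq_of_forall_sub_mem_pow J hB fun n => ?_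
  rw [← Ideal.Quotient.eq, mk_cplLift, liftLevel_algebraMap]

theorem cplLift_comp_algebraMap (hB : IsAdicComplete J B) :
    (cplLift J φ hφ hB).comp (algebraMap R (Cpl R)) = φ :=
  RingHom.ext (cplLift_algebraMap J φ hφ hB)

end lift

section unique

variable {Λ : Type*} [CommRing Λ] [IsDomain Λ] [IsDiscreteValuationRing Λ]
  {B : Type*} [CommRing B] (J : Ideal B)

/-- Two ring homomorphisms out of the completion of a discrete valuation ring into a `J`-adically
separated ring which agree on `Λ` and map a uniformiser into `J` are equal. -/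
theorem cpl_ringHom_ext (hB : IsAdicComplete J B) {ϖ : Λ} (hϖ : Irreducible ϖ)
    {ψ₁ ψ₂ : Cpl Λ →+* B} (h : ∀ a : Λ, ψ₁ (algebraMap Λ (Cpl Λ) a) = ψ₂ (algebraMap Λ (Cpl Λ) a))
    (hJ : ψ₁ (algebraMap Λ (Cpl Λ) ϖ) ∈ J) : ψ₁ = ψ₂ := by
  ext x
  refine eq_of_forall_sub_mem_pow J hB fun n => ?_
  obtain ⟨a, z, hz⟩ := exists_pow_dvd_sub hϖ x n
  have hx : x = algebraMap Λ (Cpl Λ) a + algebraMap Λ (Cpl Λ) ϖ ^ n * z := by
    rw [← hz]; ring
  have hJ2 : ψ₂ (algebraMap Λ (Cpl Λ) ϖ) ∈ J := by rwa [← h]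
  have e : ψ₁ x - ψ₂ x = ψ₁ (algebraMap Λ (Cpl Λ) ϖ) ^ n * ψ₁ z -
      ψ₂ (algebraMap Λ (Cpl Λ) ϖ) ^ n * ψ₂ z := by
    rw [hx]
    simp only [map_add, map_mul, map_pow, h a]
    ring
  rw [e]
  exact Ideal.sub_mem _ (Ideal.mul_mem_right _ _ (Ideal.pow_mem_pow hJ n))
    (Ideal.mul_mem_right _ _ (Ideal.pow_mem_pow hJ2 n))

end unique

end Fermat.Agent.FF3.DVCompl
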