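/-
PROGRAMME I, leaf L13 (DV-completion package), file 3: the INPUT datum. A field `F₀`, a valuation
subring `O₀`, an element `w ∈ O₀`, `w ≠ 0`, such that (H1) every non-unit of `O₀` is divisible by `w`
in `O₀` and (H2) `⋂ₙ wⁿ O₀ = 0`. No topology. Consequence: `O₀` is a discrete valuation ring with
uniformiser `w`. Mathlib only.
-/
import Mathlib

namespace Fermat.Agent.FF3.DVCompl

universe u

/-- The input of the DV-completion package: `(F₀, O₀, w)` with (H1) and (H2). -/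
structure Datum (F₀ : Type u) [Field F₀] where
  /-- the valuation ring -/
  O₀ : ValuationSubring F₀
  /-- the uniformiser -/
  w : F₀
  w_mem : w ∈ O₀
  w_ne_zero : w ≠ 0
  /-- (H1) every non-unit of `O₀` is divisible by `w` in `O₀` -/
  dvd_of_not_isUnit : ∀ x : O₀, ¬ IsUnit x → ∃ y : O₀, x = ⟨w, w_mem⟩ * y
  /-- (H2) `⋂ₙ wⁿ O₀ = 0` -/
  eq_zero_of_forall_dvd : ∀ x : O₀, (∀ n : ℕ, ∃ y : O₀, x = ⟨w, w_mem⟩ ^ n * y) → x = 0

namespace Datum

variable {F₀ : Type u} [Field F₀] (D : Datum F₀)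

/-- The uniformiser as an element of `O₀`. -/
def w₀ : D.O₀ := ⟨D.w, D.w_mem⟩

@[simp] theorem coe_w₀ : (D.w₀ : F₀) = D.w := rfl

theorem w₀_ne_zero : D.w₀ ≠ 0 := fun h => D.w_ne_zero (congrArg Subtype.val h)

theorem dvd_of_not_isUnit' {x : D.O₀} (hx : ¬ IsUnit x) : D.w₀ ∣ x :=
  let ⟨y, hy⟩ := D.dvd_of_not_isUnit x hx
  ⟨y, hy⟩

theorem eq_zero_of_forall_pow_dvd {x : D.O₀} (hx : ∀ n : ℕ, D.w₀ ^ n ∣ x) : x = 0 :=
  D.eq_zero_of_forall_dvd x fun n => let ⟨y, hy⟩ := hx n; ⟨y, hy⟩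

theorem not_isUnit_w₀ : ¬ IsUnit D.w₀ := by
  intro h
  have h1 : (1 : D.O₀) = 0 := D.eq_zero_of_forall_pow_dvd fun n => (h.pow n).dvd
  exact one_ne_zero h1

theorem irreducible_w₀ : Irreducible D.w₀ := by
  refine ⟨D.not_isUnit_w₀, fun a b hab => ?_⟩
  by_contra hcon
  push Not at hcon
  obtain ⟨a', ha'⟩ := D.dvd_of_not_isUnit' hcon.1
  obtain ⟨b', hb'⟩ := D.dvd_of_not_isUnit' hcon.2
  have h1 : D.w₀ * 1 = D.w₀ * (D.w₀ * (a' * b')) := by
    rw [mul_one]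
    conv_lhs => rw [hab, ha', hb']
    ring
  have h2 := mul_left_cancel₀ D.w₀_ne_zero h1
  exact D.not_isUnit_w₀ (IsUnit.of_mul_eq_one _ h2.symm)

/-- Every nonzero element of `O₀` is associated to a power of `w`. -/
theorem exists_associated_pow {x : D.O₀} (hx : x ≠ 0) : ∃ n : ℕ, Associated (D.w₀ ^ n) x := by
  classical
  have hex : ∃ n : ℕ, ¬ D.w₀ ^ n ∣ x := by
    by_contra hcon
    push Not at hcon
    exact hx (D.eq_zero_of_forall_pow_dvd hcon)
  have hN : ¬ D.w₀ ^ Nat.find hex ∣ x := Nat.find_spec hex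
  have hN0 : Nat.find hex ≠ 0 := by
    intro h0
    rw [h0, pow_zero] at hN
    exact hN (one_dvd x)
  obtain ⟨n, hn⟩ : ∃ n, Nat.find hex = n + 1 := ⟨Nat.find hex - 1, by omega⟩
  have hdvd : D.w₀ ^ n ∣ x := by
    by_contra h
    have := Nat.find_min' hex h
    omega
  obtain ⟨u, hu⟩ := hdvd
  have hunit : IsUnit u := by
    by_contra hnu
    obtain ⟨u', hu'⟩ := D.dvd_of_not_isUnit' hnu
    apply hN
    rw [hn, hu, hu', pow_succ]
    exact ⟨u', by ring⟩
  exact ⟨n, hunit.unit, hu.symm⟩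

instance instIsDiscreteValuationRing : IsDiscreteValuationRing D.O₀ :=
  IsDiscreteValuationRing.ofHasUnitMulPowIrreducibleFactorization
    ⟨D.w₀, D.irreducible_w₀, fun hx => D.exists_associated_pow hx⟩

theorem maximalIdeal_eq_span : IsLocalRing.maximalIdeal D.O₀ = Ideal.span {D.w₀} :=
  D.irreducible_w₀.maximalIdeal_eq

/-- Constructor from a discrete valuation ring structure and a uniformiser. -/
def ofIrreducible (O₀ : ValuationSubring F₀) [IsDiscreteValuationRing O₀] (w : F₀) (hw : w ∈ O₀)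
    (hirr : Irreducible (⟨w, hw⟩ : O₀)) : Datum F₀ where
  O₀ := O₀
  w := w
  w_mem := hw
  w_ne_zero := fun h => hirr.ne_zero (Subtype.ext h)
  dvd_of_not_isUnit := fun x hx => by
    have h1 : x ∈ IsLocalRing.maximalIdeal O₀ := (IsLocalRing.mem_maximalIdeal x).mpr hx
    rw [hirr.maximalIdeal_eq, Ideal.mem_span_singleton] at h1
    exact h1
  eq_zero_of_forall_dvd := fun x hx => by
    by_contra hne
    obtain ⟨n, hn⟩ := IsDiscreteValuationRing.associated_pow_irreducible hne hirr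
    obtain ⟨y, hy⟩ := hx (n + 1)
    have h0 : (⟨w, hw⟩ : O₀) ^ (n + 1) ∣ x := ⟨y, hy⟩
    have h1 : (⟨w, hw⟩ : O₀) ^ (n + 1) ∣ (⟨w, hw⟩ : O₀) ^ n := h0.trans hn.dvd
    have h2 := (pow_dvd_pow_iff hirr.ne_zero hirr.not_isUnit).mp h1
    omega

end Datum

end Fermat.Agent.FF3.DVCompl
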