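/-
PROGRAMME I, leaf L13 (DV-completion package), file 4: the completed field `D.Lh`, its valuation ring
`D.Oh`, the embedding `D.emb : F₀ →+* D.Lh`, and the properties (a) `emb x ∈ Oh ↔ x ∈ O₀`,
(b) `Oh` is a DVR with uniformiser `emb w`, (c) completeness, (d) density. Mathlib only.
-/
import Mathlib
import Fermat.Agent.FF3.DVCompl.Cpl
import Fermat.Agent.FF3.DVCompl.Datum

namespace Fermat.Agent.FF3.DVCompl

namespace Datum

universe u

variable {F₀ : Type u} [Field F₀] (D : Datum F₀)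

/-- The completed valuation ring as an abstract ring (implementation; the API is `D.Oh`). -/
abbrev Ohat : Type u := Cpl D.O₀

/-- The uniformiser in the abstract completed ring. -/
noncomputable def what : D.Ohat := algebraMap D.O₀ D.Ohat D.w₀

theorem irreducible_what : Irreducible D.what := irreducible_algebraMap_cpl D.irreducible_w₀

/-- **The completed field** `L̂` of `(F₀, O₀)`. -/
def Lh : Type u := FractionRing D.Ohat

noncomputable instance instFieldLh : Field D.Lh := inferInstanceAs (Field (FractionRing D.Ohat))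

noncomputable instance instAlgebraOhatLh : Algebra D.Ohat D.Lh :=
  inferInstanceAs (Algebra D.Ohat (FractionRing D.Ohat))

instance instIsFractionRingOhatLh : IsFractionRing D.Ohat D.Lh :=
  inferInstanceAs (IsFractionRing D.Ohat (FractionRing D.Ohat))

theorem algebraMap_Ohat_injective : Function.Injective (algebraMap D.Ohat D.Lh) :=
  IsFractionRing.injective D.Ohat D.Lh

/-- **The valuation ring** `Ô` of the completed field. -/
noncomputable def Oh : ValuationSubring D.Lh where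
  toSubring := (algebraMap D.Ohat D.Lh).range
  mem_or_inv_mem' := fun x => by
    rcases ValuationRing.isInteger_or_isInteger D.Ohat x with ⟨a, ha⟩ | ⟨a, ha⟩
    · exact Or.inl ⟨a, ha⟩
    · exact Or.inr ⟨a, ha⟩

theorem mem_Oh_iff (x : D.Lh) : x ∈ D.Oh ↔ ∃ a : D.Ohat, algebraMap D.Ohat D.Lh a = x :=
  Iff.rfl

theorem algebraMap_mem_Oh (a : D.Ohat) : algebraMap D.Ohat D.Lh a ∈ D.Oh := ⟨a, rfl⟩

/-- The abstract completed ring is the valuation ring of `D.Lh`. -/
noncomputable def ohEquiv : D.Ohat ≃+* D.Oh :=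
  RingEquiv.ofBijective ((algebraMap D.Ohat D.Lh).codRestrict D.Oh D.algebraMap_mem_Oh)
    ⟨fun _ _ h => D.algebraMap_Ohat_injective (congrArg Subtype.val h),
     fun y => let ⟨a, ha⟩ := (D.mem_Oh_iff y).mp y.2; ⟨a, Subtype.ext ha⟩⟩

@[simp] theorem coe_ohEquiv (a : D.Ohat) : (D.ohEquiv a : D.Lh) = algebraMap D.Ohat D.Lh a := rfl

theorem algebraMap_comp_injective :
    Function.Injective ((algebraMap D.Ohat D.Lh).comp (algebraMap D.O₀ D.Ohat)) :=
  D.algebraMap_Ohat_injective.comp algebraMap_cpl_injective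

/-- **The embedding** `F₀ → L̂`. -/
noncomputable def emb : F₀ →+* D.Lh :=
  IsFractionRing.lift (A := D.O₀) (K := F₀) D.algebraMap_comp_injective

theorem emb_coe (x : D.O₀) :
    D.emb (x : F₀) = algebraMap D.Ohat D.Lh (algebraMap D.O₀ D.Ohat x) :=
  IsFractionRing.lift_algebraMap D.algebraMap_comp_injective x

/-- The embedding on the valuation rings. -/
noncomputable def embO : D.O₀ →+* D.Oh :=
  (D.ohEquiv : D.Ohat →+* D.Oh).comp (algebraMap D.O₀ D.Ohat)

theorem embO_apply (x : D.O₀) : D.embO x = D.ohEquiv (algebraMap D.O₀ D.Ohat x) := rfl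

@[simp] theorem coe_embO (x : D.O₀) : (D.embO x : D.Lh) = D.emb (x : F₀) := by
  rw [emb_coe]; rfl

theorem embO_injective : Function.Injective D.embO := fun a b h => by
  have h1 : D.emb (a : F₀) = D.emb (b : F₀) := by rw [← coe_embO, ← coe_embO, h]
  exact Subtype.ext (D.emb.injective h1)

/-- The uniformiser of `Ô`. -/
noncomputable def wh : D.Oh := D.embO D.w₀

@[simp] theorem coe_wh : (D.wh : D.Lh) = D.emb D.w := D.coe_embO D.w₀

theorem wh_eq : D.wh = D.ohEquiv D.what := rfl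

/-- **(a)** `emb x ∈ Ô ↔ x ∈ O₀`. -/
theorem emb_mem_iff (x : F₀) : D.emb x ∈ D.Oh ↔ x ∈ D.O₀ := by
  constructor
  · intro hx
    by_contra hxO
    have hx0 : x ≠ 0 := fun h => hxO (h ▸ D.O₀.zero_mem)
    have hinv : x⁻¹ ∈ D.O₀ := (D.O₀.mem_or_inv_mem x).resolve_left hxO
    have hnu : ¬ IsUnit (⟨x⁻¹, hinv⟩ : D.O₀) := by
      intro hu
      obtain ⟨u, hu⟩ := hu
      apply hxO
      have h1 : ((u⁻¹ : (D.O₀)ˣ) : D.O₀) * ⟨x⁻¹, hinv⟩ = 1 := by rw [← hu]; exact u.inv_mul
      have h2 : (((u⁻¹ : (D.O₀)ˣ) : D.O₀) : F₀) * x⁻¹ = 1 := congrArg Subtype.val h1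
      rw [← (mul_inv_eq_one₀ hx0).mp h2]
      exact Subtype.property _
    obtain ⟨y, hy⟩ := D.dvd_of_not_isUnit' hnu
    obtain ⟨c, hc⟩ := (D.mem_Oh_iff _).mp hx
    have h1 : algebraMap D.Ohat D.Lh (c * (D.what * algebraMap D.O₀ D.Ohat y)) = 1 := by
      rw [map_mul, hc, what, ← map_mul, ← emb_coe, ← hy, ← map_mul]
      simp [mul_inv_cancel₀ hx0]
    have h2 : c * (D.what * algebraMap D.O₀ D.Ohat y) = 1 :=
      D.algebraMap_Ohat_injective (by rw [h1, map_one])
    have h3 : IsUnit D.what :=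
      IsUnit.of_mul_eq_one (c * algebraMap D.O₀ D.Ohat y) (by rw [← h2]; ring)
    exact D.irreducible_what.not_isUnit h3
  · intro hx
    have := D.emb_coe ⟨x, hx⟩
    exact ⟨_, this.symm⟩

/-! ### (b) `Ô` is a discrete valuation ring with uniformiser `emb w` -/

instance instIsDiscreteValuationRingOh : IsDiscreteValuationRing D.Oh :=
  IsDiscreteValuationRing.RingEquivClass.isDiscreteValuationRing D.ohEquiv

theorem irreducible_wh : Irreducible D.wh := by
  rw [wh_eq]
  exact (MulEquiv.irreducible_iff D.ohEquiv).mpr D.irreducible_what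

theorem maximalIdeal_Oh_eq_span : IsLocalRing.maximalIdeal D.Oh = Ideal.span {D.wh} :=
  D.irreducible_wh.maximalIdeal_eq

/-- **(b1)** every non-unit of `Ô` is divisible by `emb w`. -/
theorem wh_dvd_of_not_isUnit {y : D.Oh} (hy : ¬ IsUnit y) : D.wh ∣ y := by
  have h1 : y ∈ IsLocalRing.maximalIdeal D.Oh := (IsLocalRing.mem_maximalIdeal y).mpr hy
  rwa [D.maximalIdeal_Oh_eq_span, Ideal.mem_span_singleton] at h1

/-- **(b2)** `⋂ₙ (emb w)ⁿ Ô = 0`. -/
theorem eq_zero_of_forall_wh_pow_dvd {y : D.Oh} (h : ∀ n : ℕ, D.wh ^ n ∣ y) : y = 0 := by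
  by_contra hne
  obtain ⟨n, hn⟩ := IsDiscreteValuationRing.associated_pow_irreducible hne D.irreducible_wh
  have h1 : D.wh ^ (n + 1) ∣ D.wh ^ n := (h (n + 1)).trans hn.dvd
  have h2 := (pow_dvd_pow_iff D.irreducible_wh.ne_zero D.irreducible_wh.not_isUnit).mp h1
  omega

theorem wh_ne_zero : D.wh ≠ 0 := D.irreducible_wh.ne_zero

theorem emb_w_mem_Oh : D.emb D.w ∈ D.Oh := (D.emb_mem_iff D.w).mpr D.w_mem

/-- The completed datum `(L̂, Ô, emb w)` is again a datum. -/
noncomputable def hat : Datum D.Lh where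
  O₀ := D.Oh
  w := D.emb D.w
  w_mem := D.emb_w_mem_Oh
  w_ne_zero := (map_ne_zero D.emb).mpr D.w_ne_zero
  dvd_of_not_isUnit := fun y hy => by
    obtain ⟨z, hz⟩ := D.wh_dvd_of_not_isUnit hy
    exact ⟨z, by rw [hz]; congr 1; exact Subtype.ext D.coe_wh⟩
  eq_zero_of_forall_dvd := fun y hy => by
    refine D.eq_zero_of_forall_wh_pow_dvd fun n => ?_
    obtain ⟨z, hz⟩ := hy n
    exact ⟨z, by rw [hz]; congr 2; exact (Subtype.ext D.coe_wh).symm⟩

@[simp] theorem hat_O₀ : D.hat.O₀ = D.Oh := rfl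
@[simp] theorem hat_w : D.hat.w = D.emb D.w := rfl

/-! ### (c) completeness -/

/-- **(c)** `Ô` is `(emb w)`-adically complete (and separated). -/
theorem isAdicComplete_Oh : IsAdicComplete (Ideal.span {D.wh}) D.Oh := by
  have h1 : IsAdicComplete (IsLocalRing.maximalIdeal D.Ohat) D.Ohat := inferInstance
  have h2 : (IsLocalRing.maximalIdeal D.Ohat).map D.ohEquiv = Ideal.span {D.wh} := by
    rw [maximalIdeal_cpl_eq_span D.irreducible_w₀, Ideal.map_span, Set.image_singleton]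
    rfl
  rw [← h2]
  exact (IsAdicComplete.congr_ringEquiv _ D.ohEquiv).mpr h1

/-- **(c')** completeness, elementary form: a sequence in `Ô` with `f (n+1) ≡ f n mod (emb w)ⁿ` has
a limit `y` with `y ≡ f n mod (emb w)ⁿ` for all `n`. -/
theorem exists_limit (f : ℕ → D.Oh) (hf : ∀ n : ℕ, D.wh ^ n ∣ f (n + 1) - f n) :
    ∃ y : D.Oh, ∀ n : ℕ, D.wh ^ n ∣ y - f n := by
  have hP : IsPrecomplete (Ideal.span {D.wh}) D.Oh := D.isAdicComplete_Oh.toIsPrecomplete
  have key : ∀ {m n : ℕ}, m ≤ n → D.wh ^ m ∣ f n - f m := by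
    intro m n hmn
    induction n, hmn using Nat.le_induction with
    | base => simp
    | succ n hmn ih =>
      have h1 : D.wh ^ m ∣ f (n + 1) - f n := (pow_dvd_pow D.wh hmn).trans (hf n)
      have : f (n + 1) - f m = (f (n + 1) - f n) + (f n - f m) := by ring
      rw [this]
      exact dvd_add h1 ih
  obtain ⟨L, hL⟩ := hP.prec' f (fun {m n} hmn => by
    rw [SModEq.sub_mem, smul_eq_mul, Ideal.mul_top, Ideal.span_singleton_pow,
      Ideal.mem_span_singleton]
    have := key hmn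
    rw [← neg_sub] 
    exact (dvd_neg).mpr this)
  refine ⟨L, fun n => ?_⟩
  have := hL n
  rw [SModEq.sub_mem, smul_eq_mul, Ideal.mul_top, Ideal.span_singleton_pow,
    Ideal.mem_span_singleton] at this
  rw [← neg_sub]
  exact (dvd_neg).mpr this

/-- Separatedness, elementary form. -/
theorem eq_of_forall_wh_pow_dvd_sub {y z : D.Oh} (h : ∀ n : ℕ, D.wh ^ n ∣ y - z) : y = z :=
  sub_eq_zero.mp (D.eq_zero_of_forall_wh_pow_dvd h)

/-! ### (d) density -/

/-- **(d)** `O₀` is dense in `Ô`. -/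
theorem exists_wh_pow_dvd_sub_embO (y : D.Oh) (n : ℕ) : ∃ a : D.O₀, D.wh ^ n ∣ y - D.embO a := by
  obtain ⟨c, rfl⟩ := D.ohEquiv.surjective y
  obtain ⟨a, z, hz⟩ := exists_pow_dvd_sub D.irreducible_w₀ c n
  refine ⟨a, D.ohEquiv z, ?_⟩
  rw [embO_apply, ← map_sub, hz, map_mul, map_pow]
  rfl

/-- **(d)** density, in the field: for `y ∈ Ô` and `n` there are `a ∈ O₀`, `z ∈ Ô` with
`y - emb a = (emb w)ⁿ z`. -/
theorem exists_sub_emb_eq {y : D.Lh} (hy : y ∈ D.Oh) (n : ℕ) :
    ∃ a ∈ D.O₀, ∃ z ∈ D.Oh, y - D.emb a = D.emb D.w ^ n * z := by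
  obtain ⟨a, z, hz⟩ := D.exists_wh_pow_dvd_sub_embO ⟨y, hy⟩ n
  refine ⟨a, a.2, z, z.2, ?_⟩
  have := congrArg Subtype.val hz
  simpa using this

end Datum

end Fermat.Agent.FF3.DVCompl
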