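/-
PROGRAMME I, leaf L13 (DV-completion package), file 5: (f) the universal property of `D.Oh`
(extension of `φ : O₀ →+* B` to `Ô →+* B` for `B` adically complete, uniqueness, extension to
`L̂ → B[1/φ w]`) and (e) the residue map. Mathlib only.
-/
import Mathlib
import Fermat.Agent.FF3.DVCompl.CplLift
import Fermat.Agent.FF3.DVCompl.Field

namespace Fermat.Agent.FF3.DVCompl

namespace Datum

universe u v

variable {F₀ : Type u} [Field F₀] (D : Datum F₀)

section lift

variable {B : Type v} [CommRing B] (J : Ideal B) (φ : D.O₀ →+* B) (hJ : φ D.w₀ ∈ J)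

include hJ in
theorem maximalIdeal_le_comap : IsLocalRing.maximalIdeal D.O₀ ≤ J.comap φ := by
  rw [D.maximalIdeal_eq_span, Ideal.span_le]
  intro x hx
  rw [Set.mem_singleton_iff] at hx
  subst hx
  exact hJ

/-- **(f), general form**: the extension of `φ : O₀ →+* B` to `Ô`, for `B` a `J`-adically complete
ring with `φ w ∈ J`. -/
noncomputable def liftOf (hB : IsAdicComplete J B) : D.Oh →+* B :=
  (cplLift J φ (D.maximalIdeal_le_comap J φ hJ) hB).comp (D.ohEquiv.symm : D.Oh →+* D.Ohat)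

theorem liftOf_ohEquiv (hB : IsAdicComplete J B) (c : D.Ohat) :
    D.liftOf J φ hJ hB (D.ohEquiv c) = cplLift J φ (D.maximalIdeal_le_comap J φ hJ) hB c := by
  simp [liftOf]

@[simp] theorem liftOf_embO (hB : IsAdicComplete J B) (x : D.O₀) :
    D.liftOf J φ hJ hB (D.embO x) = φ x := by
  rw [embO_apply, liftOf_ohEquiv, cplLift_algebraMap]

theorem liftOf_comp_embO (hB : IsAdicComplete J B) : (D.liftOf J φ hJ hB).comp D.embO = φ :=
  RingHom.ext (D.liftOf_embO J φ hJ hB)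

@[simp] theorem liftOf_wh (hB : IsAdicComplete J B) : D.liftOf J φ hJ hB D.wh = φ D.w₀ :=
  D.liftOf_embO J φ hJ hB D.w₀

theorem liftOf_mk_emb (hB : IsAdicComplete J B) (x : F₀) (hx : x ∈ D.O₀) :
    D.liftOf J φ hJ hB ⟨D.emb x, (D.emb_mem_iff x).mpr hx⟩ = φ ⟨x, hx⟩ := by
  rw [← D.liftOf_embO J φ hJ hB ⟨x, hx⟩]
  congr 1
  exact Subtype.ext (D.coe_embO ⟨x, hx⟩).symm

/-- **(f), uniqueness**. -/
theorem eq_liftOf (hB : IsAdicComplete J B) (ψ : D.Oh →+* B) (h : ∀ x : D.O₀, ψ (D.embO x) = φ x) :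
    ψ = D.liftOf J φ hJ hB := by
  have key : ψ.comp (D.ohEquiv : D.Ohat →+* D.Oh) =
      cplLift J φ (D.maximalIdeal_le_comap J φ hJ) hB := by
    refine cpl_ringHom_ext J hB D.irreducible_w₀ (fun a => ?_) ?_
    · rw [cplLift_algebraMap]
      exact h a
    · have : (ψ.comp (D.ohEquiv : D.Ohat →+* D.Oh)) (algebraMap D.O₀ (Cpl D.O₀) D.w₀) = φ D.w₀ :=
        h D.w₀
      rw [this]
      exact hJ
  ext y
  obtain ⟨c, rfl⟩ := D.ohEquiv.surjective y
  rw [liftOf_ohEquiv, ← key]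
  rfl

/-- Two ring homomorphisms `Ô →+* B` which agree on `O₀` and map `emb w` into `J` are equal, if `B`
is `J`-adically complete (separated suffices). -/
theorem ringHom_ext_of_embO (hB : IsAdicComplete J B) {ψ₁ ψ₂ : D.Oh →+* B}
    (h : ∀ x : D.O₀, ψ₁ (D.embO x) = ψ₂ (D.embO x)) (h1 : ψ₁ D.wh ∈ J) : ψ₁ = ψ₂ := by
  have e1 := D.eq_liftOf J (ψ₁.comp D.embO) h1 hB ψ₁ (fun _ => rfl)
  have e2 := D.eq_liftOf J (ψ₁.comp D.embO) h1 hB ψ₂ (fun x => (h x).symm)
  rw [e1, e2]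

/-- **(f)**, as in the specification: `B` is `(φ w)`-adically complete. -/
noncomputable def lift (hB : IsAdicComplete (Ideal.span {φ D.w₀}) B) : D.Oh →+* B :=
  D.liftOf (Ideal.span {φ D.w₀}) φ (Ideal.mem_span_singleton_self _) hB

@[simp] theorem lift_embO (hB : IsAdicComplete (Ideal.span {φ D.w₀}) B) (x : D.O₀) :
    D.lift φ hB (D.embO x) = φ x :=
  D.liftOf_embO _ φ _ hB x

theorem lift_comp_embO (hB : IsAdicComplete (Ideal.span {φ D.w₀}) B) :
    (D.lift φ hB).comp D.embO = φ :=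
  RingHom.ext (D.lift_embO φ hB)

@[simp] theorem lift_wh (hB : IsAdicComplete (Ideal.span {φ D.w₀}) B) :
    D.lift φ hB D.wh = φ D.w₀ :=
  D.lift_embO φ hB D.w₀

theorem lift_mk_emb (hB : IsAdicComplete (Ideal.span {φ D.w₀}) B) (x : F₀) (hx : x ∈ D.O₀) :
    D.lift φ hB ⟨D.emb x, (D.emb_mem_iff x).mpr hx⟩ = φ ⟨x, hx⟩ :=
  D.liftOf_mk_emb _ φ _ hB x hx

theorem eq_lift (hB : IsAdicComplete (Ideal.span {φ D.w₀}) B) (ψ : D.Oh →+* B)
    (h : ∀ x : D.O₀, ψ (D.embO x) = φ x) : ψ = D.lift φ hB :=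
  D.eq_liftOf _ φ _ hB ψ h

theorem existsUnique_lift (hB : IsAdicComplete (Ideal.span {φ D.w₀}) B) :
    ∃! ψ : D.Oh →+* B, ψ.comp D.embO = φ :=
  ⟨D.lift φ hB, D.lift_comp_embO φ hB,
    fun ψ h => D.eq_lift φ hB ψ fun x => by rw [← h]; rfl⟩

end lift

section frac

variable {B : Type v} [CommRing B] (J : Ideal B) (φ : D.O₀ →+* B) (hJ : φ D.w₀ ∈ J)
  {C : Type*} [CommRing C] (g : B →+* C) (hu : IsUnit (g (φ D.w₀)))

include hu in
theorem isUnit_comp_liftOf (hB : IsAdicComplete J B) {y : D.Oh} (hy : y ≠ 0) :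
    IsUnit (g (D.liftOf J φ hJ hB y)) := by
  obtain ⟨n, u, hn⟩ := IsDiscreteValuationRing.associated_pow_irreducible hy D.irreducible_wh
  have h1 : g (D.liftOf J φ hJ hB y) * g (D.liftOf J φ hJ hB (u : D.Oh)) = g (φ D.w₀) ^ n := by
    rw [← map_mul, ← map_mul, hn, map_pow, liftOf_wh, map_pow]
  exact isUnit_of_mul_isUnit_left (h1 ▸ hu.pow n)

/-- **(f), fraction field part, general form**: if `g : B →+* C` makes `φ w` invertible, the
extension `Ô →+* B` extends to `L̂ →+* C`. -/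
noncomputable def liftLhOf (hB : IsAdicComplete J B) : D.Lh →+* C :=
  IsLocalization.lift (M := nonZeroDivisors D.Oh) (S := D.Lh)
    (g := g.comp (D.liftOf J φ hJ hB))
    (fun y => D.isUnit_comp_liftOf J φ hJ g hu hB (nonZeroDivisors.ne_zero y.2))

@[simp] theorem liftLhOf_coe (hB : IsAdicComplete J B) (y : D.Oh) :
    D.liftLhOf J φ hJ g hu hB (y : D.Lh) = g (D.liftOf J φ hJ hB y) :=
  IsLocalization.lift_eq (M := nonZeroDivisors D.Oh) (S := D.Lh) _ y

theorem liftLhOf_emb_coe (hB : IsAdicComplete J B) (x : D.O₀) :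
    D.liftLhOf J φ hJ g hu hB (D.emb (x : F₀)) = g (φ x) := by
  rw [← coe_embO, liftLhOf_coe, liftOf_embO]

theorem liftLhOf_emb_w (hB : IsAdicComplete J B) :
    D.liftLhOf J φ hJ g hu hB (D.emb D.w) = g (φ D.w₀) :=
  D.liftLhOf_emb_coe J φ hJ g hu hB D.w₀

theorem eq_liftLhOf (hB : IsAdicComplete J B) (Ψ : D.Lh →+* C)
    (h : ∀ y : D.Oh, Ψ (y : D.Lh) = g (D.liftOf J φ hJ hB y)) :
    Ψ = D.liftLhOf J φ hJ g hu hB :=
  (IsLocalization.lift_unique (M := nonZeroDivisors D.Oh) (S := D.Lh) _ h).symm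

/-- **(f), fraction field part**, as in the specification: `L̂ →+* B[1/φ w]`. -/
noncomputable def liftFrac (hB : IsAdicComplete (Ideal.span {φ D.w₀}) B) :
    D.Lh →+* Localization.Away (φ D.w₀) :=
  D.liftLhOf (Ideal.span {φ D.w₀}) φ (Ideal.mem_span_singleton_self _)
    (algebraMap B (Localization.Away (φ D.w₀))) (IsLocalization.Away.algebraMap_isUnit _) hB

@[simp] theorem liftFrac_coe (hB : IsAdicComplete (Ideal.span {φ D.w₀}) B) (y : D.Oh) :
    D.liftFrac φ hB (y : D.Lh) = algebraMap B (Localization.Away (φ D.w₀)) (D.lift φ hB y) :=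
  D.liftLhOf_coe _ φ _ _ _ hB y

theorem liftFrac_emb_coe (hB : IsAdicComplete (Ideal.span {φ D.w₀}) B) (x : D.O₀) :
    D.liftFrac φ hB (D.emb (x : F₀)) = algebraMap B (Localization.Away (φ D.w₀)) (φ x) :=
  D.liftLhOf_emb_coe _ φ _ _ _ hB x

end frac

section residue

variable {k' : Type v} [CommRing k'] (res : D.O₀ →+* k') (hres : res D.w₀ = 0)

include hres in
theorem isAdicComplete_span_res : IsAdicComplete (Ideal.span {res D.w₀}) k' := by
  rw [hres, Ideal.span_singleton_eq_bot.mpr rfl]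
  infer_instance

/-- **(e)** the residue map of `Ô` extending `res : O₀ →+* k'` (`res w = 0`). -/
noncomputable def resh : D.Oh →+* k' := D.lift res (D.isAdicComplete_span_res res hres)

@[simp] theorem resh_embO (x : D.O₀) : D.resh res hres (D.embO x) = res x :=
  D.lift_embO res _ x

theorem resh_comp_embO : (D.resh res hres).comp D.embO = res :=
  RingHom.ext (D.resh_embO res hres)

theorem resh_mk_emb (x : F₀) (hx : x ∈ D.O₀) :
    D.resh res hres ⟨D.emb x, (D.emb_mem_iff x).mpr hx⟩ = res ⟨x, hx⟩ :=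
  D.lift_mk_emb res _ x hx

@[simp] theorem resh_wh : D.resh res hres D.wh = 0 := by
  rw [resh, lift_wh, hres]

/-- **(e), uniqueness**. -/
theorem eq_resh (ψ : D.Oh →+* k') (h : ∀ x : D.O₀, ψ (D.embO x) = res x) : ψ = D.resh res hres :=
  D.eq_lift res _ ψ h

theorem resh_eq_zero_of_not_isUnit {y : D.Oh} (hy : ¬ IsUnit y) : D.resh res hres y = 0 := by
  obtain ⟨z, rfl⟩ := D.wh_dvd_of_not_isUnit hy
  rw [map_mul, resh_wh, zero_mul]

/-- **(e)** the kernel of the residue map is the set of non-units. -/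
theorem resh_eq_zero_iff [Nontrivial k'] (y : D.Oh) : D.resh res hres y = 0 ↔ ¬ IsUnit y := by
  refine ⟨fun h hu => ?_, D.resh_eq_zero_of_not_isUnit res hres⟩
  have := hu.map (D.resh res hres)
  rw [h] at this
  exact not_isUnit_zero this

theorem resh_eq_zero_iff_dvd [Nontrivial k'] (y : D.Oh) : D.resh res hres y = 0 ↔ D.wh ∣ y := by
  rw [resh_eq_zero_iff]
  refine ⟨D.wh_dvd_of_not_isUnit, fun h hu => ?_⟩
  exact D.irreducible_wh.not_isUnit (isUnit_of_dvd_unit h hu)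

theorem ker_resh [Nontrivial k'] :
    RingHom.ker (D.resh res hres) = IsLocalRing.maximalIdeal D.Oh := by
  ext y
  rw [RingHom.mem_ker, resh_eq_zero_iff, IsLocalRing.mem_maximalIdeal, mem_nonunits_iff]

theorem resh_surjective (hs : Function.Surjective res) : Function.Surjective (D.resh res hres) :=
  fun c => let ⟨x, hx⟩ := hs c; ⟨D.embO x, by rw [resh_embO, hx]⟩

/-- `res w = 0` as soon as `res` kills the non-units. -/
theorem res_w₀_eq_zero (hker : ∀ x : D.O₀, ¬ IsUnit x → res x = 0) : res D.w₀ = 0 :=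
  hker _ D.not_isUnit_w₀

/-- **(e)** as in the specification: existence and uniqueness of the extension of the residue map. -/
theorem existsUnique_resh (hker : ∀ x : D.O₀, ¬ IsUnit x → res x = 0) :
    ∃! ψ : D.Oh →+* k', ψ.comp D.embO = res :=
  ⟨D.resh res (D.res_w₀_eq_zero res hker), D.resh_comp_embO res _,
    fun ψ h => D.eq_resh res _ ψ fun x => by rw [← h]; rfl⟩

end residue

end Datum

end Fermat.Agent.FF3.DVCompl
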