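/-
PROGRAMME I, leaf L13 (DV-completion package), file 6: (g) functoriality. A field homomorphism
`σ : F₀ →+* F₀'` carrying `O₀` into `O₀'` and `w` to a non-unit of `O₀'` (not necessarily a
uniformiser) induces `D.map : L̂ →+* L̂'`, compatible with the embeddings, mapping `Ô` into `Ô'`,
unique with these properties; `map_id`, `map_comp`. Mathlib only.
-/
import Mathlib
import Fermat.Agent.FF3.DVCompl.Lift

namespace Fermat.Agent.FF3.DVCompl

namespace Datum

universe u u' u''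

variable {F₀ : Type u} [Field F₀] (D : Datum F₀) {F₀' : Type u'} [Field F₀'] (D' : Datum F₀')

/-- `Ô` is complete for its maximal ideal. -/
theorem isAdicComplete_maximalIdeal_Oh :
    IsAdicComplete (IsLocalRing.maximalIdeal D.Oh) D.Oh := by
  rw [D.maximalIdeal_Oh_eq_span]
  exact D.isAdicComplete_Oh

theorem embO_mem_maximalIdeal {x : D.O₀} (hx : ¬ IsUnit x) :
    D.embO x ∈ IsLocalRing.maximalIdeal D.Oh := by
  obtain ⟨y, rfl⟩ := D.dvd_of_not_isUnit' hx
  rw [map_mul, D.maximalIdeal_Oh_eq_span]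
  exact Ideal.mul_mem_right _ _ (Ideal.mem_span_singleton_self _)

/-- A morphism of data: a field homomorphism carrying `O₀` into `O₀'` and `w` to a non-unit. -/
structure Hom where
  /-- the field homomorphism -/
  σ : F₀ →+* F₀'
  map_mem : ∀ x ∈ D.O₀, σ x ∈ D'.O₀
  not_isUnit : ¬ IsUnit (⟨σ D.w, map_mem D.w D.w_mem⟩ : D'.O₀)

variable {D D'}

namespace Hom

variable (f : Hom D D')

/-- The restriction `O₀ →+* O₀'`. -/
def resO : D.O₀ →+* D'.O₀ :=
  (f.σ.comp D.O₀.subtype).codRestrict D'.O₀ fun x => f.map_mem x x.2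

@[simp] theorem coe_resO (x : D.O₀) : (f.resO x : F₀') = f.σ (x : F₀) := rfl

theorem resO_w₀ : f.resO D.w₀ = ⟨f.σ D.w, f.map_mem D.w D.w_mem⟩ := rfl

theorem embO_resO_w₀_mem :
    (D'.embO.comp f.resO) D.w₀ ∈ IsLocalRing.maximalIdeal D'.Oh :=
  D'.embO_mem_maximalIdeal f.not_isUnit

/-- **(g)** on the valuation rings: `Ô →+* Ô'`. -/
noncomputable def mapO : D.Oh →+* D'.Oh :=
  D.liftOf (IsLocalRing.maximalIdeal D'.Oh) (D'.embO.comp f.resO) f.embO_resO_w₀_mem
    D'.isAdicComplete_maximalIdeal_Oh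

@[simp] theorem mapO_embO (x : D.O₀) : f.mapO (D.embO x) = D'.embO (f.resO x) :=
  D.liftOf_embO _ _ _ _ x

theorem mapO_wh : f.mapO D.wh = D'.embO (f.resO D.w₀) := f.mapO_embO D.w₀

theorem mapO_wh_ne_zero : f.mapO D.wh ≠ 0 := by
  rw [mapO_wh]
  intro h
  have h1 : f.resO D.w₀ = 0 := D'.embO_injective (by rw [h, map_zero])
  have h2 : f.σ D.w = 0 := congrArg Subtype.val h1
  exact D.w_ne_zero ((map_eq_zero f.σ).mp h2)

theorem mapO_wh_mem : f.mapO D.wh ∈ IsLocalRing.maximalIdeal D'.Oh := by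
  rw [mapO_wh]
  exact f.embO_resO_w₀_mem

theorem mapO_injective : Function.Injective f.mapO := by
  rw [injective_iff_map_eq_zero]
  intro y hy
  by_contra hne
  obtain ⟨n, u, hn⟩ := IsDiscreteValuationRing.associated_pow_irreducible hne D.irreducible_wh
  have h1 : f.mapO D.wh ^ n = 0 := by
    rw [← map_pow, ← hn, map_mul, hy, zero_mul]
  exact pow_ne_zero n f.mapO_wh_ne_zero h1

/-- Uniqueness of `mapO`. -/
theorem eq_mapO (ψ : D.Oh →+* D'.Oh) (h : ∀ x : D.O₀, ψ (D.embO x) = D'.embO (f.resO x)) :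
    ψ = f.mapO :=
  D.eq_liftOf _ _ _ _ ψ h

/-- `mapO` is a local homomorphism: it maps non-units to non-units. -/
theorem mapO_mem_maximalIdeal {y : D.Oh} (hy : ¬ IsUnit y) :
    f.mapO y ∈ IsLocalRing.maximalIdeal D'.Oh := by
  obtain ⟨z, rfl⟩ := D.wh_dvd_of_not_isUnit hy
  rw [map_mul]
  exact Ideal.mul_mem_right _ _ f.mapO_wh_mem

theorem injective_subtype_comp_mapO :
    Function.Injective (D'.Oh.subtype.comp f.mapO) :=
  Subtype.val_injective.comp f.mapO_injective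

/-- **(g)** the induced homomorphism of completed fields `L̂ →+* L̂'`. -/
noncomputable def map : D.Lh →+* D'.Lh :=
  IsFractionRing.lift (A := D.Oh) (K := D.Lh) f.injective_subtype_comp_mapO

@[simp] theorem map_coe (y : D.Oh) : f.map (y : D.Lh) = (f.mapO y : D'.Lh) :=
  IsFractionRing.lift_algebraMap (A := D.Oh) (K := D.Lh) f.injective_subtype_comp_mapO y

/-- **(g)** `map` sends `Ô` into `Ô'`. -/
theorem map_mem_Oh {y : D.Lh} (hy : y ∈ D.Oh) : f.map y ∈ D'.Oh := by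
  have := f.map_coe ⟨y, hy⟩
  rw [this]
  exact (f.mapO ⟨y, hy⟩).2

/-- **(g)** compatibility with the embeddings: `map ∘ emb = emb' ∘ σ`. -/
theorem map_emb (x : F₀) : f.map (D.emb x) = D'.emb (f.σ x) := by
  have key : (f.map.comp D.emb) = (D'.emb.comp f.σ) := by
    refine IsFractionRing.ringHom_ext (A := D.O₀) (K := F₀) fun a => ?_
    change f.map (D.emb (a : F₀)) = D'.emb (f.σ (a : F₀))
    rw [← coe_embO, map_coe, mapO_embO, coe_embO, coe_resO]
  exact RingHom.congr_fun key x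

theorem map_comp_emb : f.map.comp D.emb = D'.emb.comp f.σ := RingHom.ext f.map_emb

/-- **(g), uniqueness**: a homomorphism `L̂ →+* L̂'` compatible with the embeddings and mapping `Ô`
into `Ô'` is `map`. -/
theorem eq_map (Ψ : D.Lh →+* D'.Lh) (h1 : ∀ x : F₀, Ψ (D.emb x) = D'.emb (f.σ x))
    (h2 : ∀ y ∈ D.Oh, Ψ y ∈ D'.Oh) : Ψ = f.map := by
  let ψ : D.Oh →+* D'.Oh := (Ψ.comp D.Oh.subtype).codRestrict D'.Oh fun y => h2 y y.2
  have hψ : ψ = f.mapO := by
    refine f.eq_mapO ψ fun x => Subtype.ext ?_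
    change Ψ (D.embO x : D.Lh) = (D'.embO (f.resO x) : D'.Lh)
    rw [coe_embO, coe_embO, h1, coe_resO]
  refine IsFractionRing.ringHom_ext (A := D.Oh) (K := D.Lh) fun y => ?_
  change Ψ (y : D.Lh) = f.map (y : D.Lh)
  rw [map_coe, ← hψ]
  rfl

theorem map_injective : Function.Injective f.map := f.map.injective

end Hom

/-! ### identity and composition -/

variable (D) in
/-- The identity morphism. -/
def Hom.id : Hom D D where
  σ := RingHom.id F₀
  map_mem := fun _ hx => hx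
  not_isUnit := D.not_isUnit_w₀

@[simp] theorem Hom.id_σ : (Hom.id D).σ = RingHom.id F₀ := rfl

theorem Hom.map_id : (Hom.id D).map = RingHom.id D.Lh :=
  ((Hom.id D).eq_map (RingHom.id D.Lh) (fun _ => rfl) (fun _ hy => hy)).symm

variable {F₀'' : Type u''} [Field F₀''] {D'' : Datum F₀''}

/-- A ring homomorphism of discrete valuation rings … : the image of a non-unit under `resO` is a
non-unit as soon as the image of `w` is. -/
theorem Hom.not_isUnit_resO (f : Hom D D') {x : D.O₀} (hx : ¬ IsUnit x) : ¬ IsUnit (f.resO x) := by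
  obtain ⟨y, rfl⟩ := D.dvd_of_not_isUnit' hx
  rw [map_mul]
  intro h
  exact f.not_isUnit (isUnit_of_mul_isUnit_left h)

/-- Composition of morphisms. -/
def Hom.comp (g : Hom D' D'') (f : Hom D D') : Hom D D'' where
  σ := g.σ.comp f.σ
  map_mem := fun x hx => g.map_mem _ (f.map_mem x hx)
  not_isUnit := g.not_isUnit_resO f.not_isUnit

@[simp] theorem Hom.comp_σ (g : Hom D' D'') (f : Hom D D') : (g.comp f).σ = g.σ.comp f.σ := rfl

theorem Hom.map_comp (g : Hom D' D'') (f : Hom D D') : (g.comp f).map = g.map.comp f.map :=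
  ((g.comp f).eq_map (g.map.comp f.map)
    (fun x => by rw [RingHom.comp_apply, f.map_emb, g.map_emb]; rfl)
    (fun _ hy => g.map_mem_Oh (f.map_mem_Oh hy))).symm

theorem Hom.map_comp_apply (g : Hom D' D'') (f : Hom D D') (y : D.Lh) :
    (g.comp f).map y = g.map (f.map y) := by
  rw [Hom.map_comp]; rfl

/-! ### isomorphisms -/

@[ext] theorem Hom.ext {f g : Hom D D'} (h : f.σ = g.σ) : f = g := by
  cases f; cases g; cases h; rfl

/-- A field isomorphism identifying the valuation rings is a morphism of data. -/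
def Hom.ofEquiv (e : F₀ ≃+* F₀') (h : ∀ x, x ∈ D.O₀ ↔ e x ∈ D'.O₀) : Hom D D' where
  σ := (e : F₀ →+* F₀')
  map_mem := fun x hx => (h x).mp hx
  not_isUnit := by
    rintro ⟨u, hu⟩
    apply D.not_isUnit_w₀
    have hv : e.symm ((u⁻¹ : (D'.O₀)ˣ) : D'.O₀) ∈ D.O₀ := by
      rw [h, RingEquiv.apply_symm_apply]
      exact Subtype.property _
    refine IsUnit.of_mul_eq_one ⟨_, hv⟩ (Subtype.ext ?_)
    have h1 : ((u : D'.O₀) : F₀') * (((u⁻¹ : (D'.O₀)ˣ) : D'.O₀) : F₀') = 1 :=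
      congrArg Subtype.val u.mul_inv
    rw [hu] at h1
    change D.w * e.symm (((u⁻¹ : (D'.O₀)ˣ) : D'.O₀) : F₀') = 1
    apply e.injective
    rw [map_mul, RingEquiv.apply_symm_apply, map_one]
    exact h1

@[simp] theorem Hom.ofEquiv_σ (e : F₀ ≃+* F₀') (h : ∀ x, x ∈ D.O₀ ↔ e x ∈ D'.O₀) :
    (Hom.ofEquiv e h).σ = (e : F₀ →+* F₀') := rfl

theorem Hom.ofEquiv_symm_aux (e : F₀ ≃+* F₀') (h : ∀ x, x ∈ D.O₀ ↔ e x ∈ D'.O₀) :
    ∀ x, x ∈ D'.O₀ ↔ e.symm x ∈ D.O₀ := fun x => by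
  rw [h, RingEquiv.apply_symm_apply]

/-- A field isomorphism identifying the valuation rings induces an isomorphism of the completed
fields. -/
noncomputable def mapEquiv (e : F₀ ≃+* F₀') (h : ∀ x, x ∈ D.O₀ ↔ e x ∈ D'.O₀) :
    D.Lh ≃+* D'.Lh :=
  RingEquiv.ofRingHom (Hom.ofEquiv e h).map (Hom.ofEquiv e.symm (Hom.ofEquiv_symm_aux e h)).map
    (by
      rw [← Hom.map_comp, ← Hom.map_id]
      congr 1
      ext x
      simp)
    (by
      rw [← Hom.map_comp, ← Hom.map_id]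
      congr 1
      ext x
      simp)

@[simp] theorem mapEquiv_apply (e : F₀ ≃+* F₀') (h : ∀ x, x ∈ D.O₀ ↔ e x ∈ D'.O₀) (y : D.Lh) :
    mapEquiv e h y = (Hom.ofEquiv e h).map y := rfl

theorem mapEquiv_emb (e : F₀ ≃+* F₀') (h : ∀ x, x ∈ D.O₀ ↔ e x ∈ D'.O₀) (x : F₀) :
    mapEquiv e h (D.emb x) = D'.emb (e x) :=
  (Hom.ofEquiv e h).map_emb x

theorem mapEquiv_mem_Oh_iff (e : F₀ ≃+* F₀') (h : ∀ x, x ∈ D.O₀ ↔ e x ∈ D'.O₀) (y : D.Lh) :
    mapEquiv e h y ∈ D'.Oh ↔ y ∈ D.Oh := by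
  refine ⟨fun hy => ?_, fun hy => (Hom.ofEquiv e h).map_mem_Oh hy⟩
  have := (Hom.ofEquiv e.symm (Hom.ofEquiv_symm_aux e h)).map_mem_Oh hy
  have h2 : (Hom.ofEquiv e.symm (Hom.ofEquiv_symm_aux e h)).map (mapEquiv e h y) = y :=
    (mapEquiv e h).symm_apply_apply y
  rwa [h2] at this

end Datum

end Fermat.Agent.FF3.DVCompl
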