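/-
PROGRAMME I, leaf L13 = DV-COMPLETION PACKAGE (helper16).  API FILE: import this one.
Mathlib only; no topology in the hypotheses.

INPUT   `D : Datum F₀`  (file `Datum.lean`): a field `F₀`, `D.O₀ : ValuationSubring F₀`, `D.w : F₀`,
        `D.w_mem : D.w ∈ D.O₀`, `D.w_ne_zero`, (H1) `D.dvd_of_not_isUnit`, (H2)
        `D.eq_zero_of_forall_dvd`.  Constructor `Datum.ofIrreducible` from
        `[IsDiscreteValuationRing O₀]` and a uniformiser.  `D.w₀ : D.O₀ := ⟨D.w, D.w_mem⟩`.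
        Consequence: `instance : IsDiscreteValuationRing D.O₀`, `D.irreducible_w₀`.
OUTPUT  `D.Lh : Type u` (same universe as `F₀`), `instance : Field D.Lh`,
        `D.Oh : ValuationSubring D.Lh`, `D.emb : F₀ →+* D.Lh`, `D.embO : D.O₀ →+* D.Oh`
        (`D.coe_embO : (D.embO x : D.Lh) = D.emb x`), `D.wh : D.Oh := D.embO D.w₀`
        (`D.coe_wh : (D.wh : D.Lh) = D.emb D.w`).
The statements (a)-(g) of the specification are restated below as `example`s with their final
literals (so this file is also the check that the names and shapes are as announced).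
-/
import Mathlib
import Fermat.Agent.FF3.DVCompl.Functor

namespace Fermat.Agent.FF3.DVCompl

universe u u' v

variable {F₀ : Type u} [Field F₀] (D : Datum F₀)

/-- (a) -/
example (x : F₀) : D.emb x ∈ D.Oh ↔ x ∈ D.O₀ := D.emb_mem_iff x

/-- (b) every non-unit of `Ô` is divisible by `emb w`; `⋂ (emb w)ⁿ Ô = 0`; `Ô` is a discrete
valuation ring with uniformiser `emb w`; the completed datum. -/
example {y : D.Oh} (hy : ¬ IsUnit y) : D.wh ∣ y := D.wh_dvd_of_not_isUnit hy
example {y : D.Oh} (h : ∀ n : ℕ, D.wh ^ n ∣ y) : y = 0 := D.eq_zero_of_forall_wh_pow_dvd h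
example : IsDiscreteValuationRing D.Oh := inferInstance
example : Irreducible D.wh := D.irreducible_wh
example : IsLocalRing.maximalIdeal D.Oh = Ideal.span {D.wh} := D.maximalIdeal_Oh_eq_span
noncomputable example : Datum D.Lh := D.hat
example : D.hat.O₀ = D.Oh := rfl
example : D.hat.w = D.emb D.w := rfl

/-- (c) completeness, both forms. -/
example : IsAdicComplete (Ideal.span {D.wh}) D.Oh := D.isAdicComplete_Oh
example : IsAdicComplete (IsLocalRing.maximalIdeal D.Oh) D.Oh := D.isAdicComplete_maximalIdeal_Oh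
example (f : ℕ → D.Oh) (hf : ∀ n : ℕ, D.wh ^ n ∣ f (n + 1) - f n) :
    ∃ y : D.Oh, ∀ n : ℕ, D.wh ^ n ∣ y - f n := D.exists_limit f hf
example {y z : D.Oh} (h : ∀ n : ℕ, D.wh ^ n ∣ y - z) : y = z := D.eq_of_forall_wh_pow_dvd_sub h

/-- (d) density, in `Ô` and in `L̂`. -/
example (y : D.Oh) (n : ℕ) : ∃ a : D.O₀, D.wh ^ n ∣ y - D.embO a := D.exists_wh_pow_dvd_sub_embO y n
example {y : D.Lh} (hy : y ∈ D.Oh) (n : ℕ) :
    ∃ a ∈ D.O₀, ∃ z ∈ D.Oh, y - D.emb a = D.emb D.w ^ n * z := D.exists_sub_emb_eq hy n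

section residue

variable {k' : Type v} [CommRing k'] (res : D.O₀ →+* k') (hres : res D.w₀ = 0)

/-- (e) the residue map `D.resh res hres : D.Oh →+* k'`. -/
example (x : D.O₀) : D.resh res hres (D.embO x) = res x := D.resh_embO res hres x
example (x : F₀) (hx : x ∈ D.O₀) :
    D.resh res hres ⟨D.emb x, (D.emb_mem_iff x).mpr hx⟩ = res ⟨x, hx⟩ := D.resh_mk_emb res hres x hx
example (ψ : D.Oh →+* k') (h : ∀ x : D.O₀, ψ (D.embO x) = res x) : ψ = D.resh res hres :=
  D.eq_resh res hres ψ h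
example [Nontrivial k'] (y : D.Oh) : D.resh res hres y = 0 ↔ ¬ IsUnit y :=
  D.resh_eq_zero_iff res hres y
example [Nontrivial k'] (y : D.Oh) : D.resh res hres y = 0 ↔ D.wh ∣ y :=
  D.resh_eq_zero_iff_dvd res hres y
example (hs : Function.Surjective res) : Function.Surjective (D.resh res hres) :=
  D.resh_surjective res hres hs
example (hker : ∀ x : D.O₀, ¬ IsUnit x → res x = 0) : ∃! ψ : D.Oh →+* k', ψ.comp D.embO = res :=
  D.existsUnique_resh res hker

end residue

section lift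

variable {B : Type v} [CommRing B] (φ : D.O₀ →+* B)

/-- (f) universal property, as specified: `B` is `(φ w)`-adically complete. -/
example (hB : IsAdicComplete (Ideal.span {φ D.w₀}) B) (x : D.O₀) :
    D.lift φ hB (D.embO x) = φ x := D.lift_embO φ hB x
example (hB : IsAdicComplete (Ideal.span {φ D.w₀}) B) (ψ : D.Oh →+* B)
    (h : ∀ x : D.O₀, ψ (D.embO x) = φ x) : ψ = D.lift φ hB := D.eq_lift φ hB ψ h
example (hB : IsAdicComplete (Ideal.span {φ D.w₀}) B) : ∃! ψ : D.Oh →+* B, ψ.comp D.embO = φ :=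
  D.existsUnique_lift φ hB
noncomputable example (hB : IsAdicComplete (Ideal.span {φ D.w₀}) B) :
    D.Lh →+* Localization.Away (φ D.w₀) := D.liftFrac φ hB
example (hB : IsAdicComplete (Ideal.span {φ D.w₀}) B) (y : D.Oh) :
    D.liftFrac φ hB (y : D.Lh) = algebraMap B (Localization.Away (φ D.w₀)) (D.lift φ hB y) :=
  D.liftFrac_coe φ hB y

/-- (f) general form: `B` is `J`-adically complete for any ideal `J ∋ φ w`; target of the fraction
field part: any `g : B →+* C` with `g (φ w)` a unit. -/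
example (J : Ideal B) (hJ : φ D.w₀ ∈ J) (hB : IsAdicComplete J B) (x : D.O₀) :
    D.liftOf J φ hJ hB (D.embO x) = φ x := D.liftOf_embO J φ hJ hB x
example (J : Ideal B) (hJ : φ D.w₀ ∈ J) (hB : IsAdicComplete J B) (ψ : D.Oh →+* B)
    (h : ∀ x : D.O₀, ψ (D.embO x) = φ x) : ψ = D.liftOf J φ hJ hB := D.eq_liftOf J φ hJ hB ψ h
example (J : Ideal B) (hJ : φ D.w₀ ∈ J) (hB : IsAdicComplete J B) {C : Type*} [CommRing C]
    (g : B →+* C) (hu : IsUnit (g (φ D.w₀))) (y : D.Oh) :
    D.liftLhOf J φ hJ g hu hB (y : D.Lh) = g (D.liftOf J φ hJ hB y) :=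
  D.liftLhOf_coe J φ hJ g hu hB y

end lift

section functoriality

variable {D} {F₀' : Type u'} [Field F₀'] {D' : Datum F₀'} (f : Datum.Hom D D')

/-- (g) functoriality: `f : Datum.Hom D D'` = (`f.σ : F₀ →+* F₀'`, `f.map_mem`, `f.not_isUnit`). -/
example (x : F₀) : f.map (D.emb x) = D'.emb (f.σ x) := f.map_emb x
example {y : D.Lh} (hy : y ∈ D.Oh) : f.map y ∈ D'.Oh := f.map_mem_Oh hy
example (y : D.Oh) : f.map (y : D.Lh) = (f.mapO y : D'.Lh) := f.map_coe y
example (Ψ : D.Lh →+* D'.Lh) (h1 : ∀ x : F₀, Ψ (D.emb x) = D'.emb (f.σ x))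
    (h2 : ∀ y ∈ D.Oh, Ψ y ∈ D'.Oh) : Ψ = f.map := f.eq_map Ψ h1 h2
example : (Datum.Hom.id D).map = RingHom.id D.Lh := Datum.Hom.map_id
example {F₀'' : Type*} [Field F₀''] {D'' : Datum F₀''} (g : Datum.Hom D' D'') :
    (g.comp f).map = g.map.comp f.map := Datum.Hom.map_comp g f
noncomputable example (e : F₀ ≃+* F₀') (h : ∀ x, x ∈ D.O₀ ↔ e x ∈ D'.O₀) : D.Lh ≃+* D'.Lh :=
  Datum.mapEquiv e h

end functoriality

end Fermat.Agent.FF3.DVCompl
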